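import Mathlib.RingTheory.Ideal.Operations
import Mathlib.RingTheory.Ideal.Maps

/-!
Coset form of prime avoidance (Kaplansky, Commutative Rings, Thm 124).
-/

set_option autoImplicit false

namespace Fermat.Agent.S57.Kap

open Ideal

/-- Coset prime avoidance: if `(x) + I` is not contained in the union of finitely many primes,
then some element `x + y`, `y ∈ I`, avoids all of them. -/
theorem exists_add_notMem_of_not_subset_union {R : Type*} [CommRing R]
    (s : Finset (Ideal R)) (hs : ∀ p ∈ s, p.IsPrime) (I : Ideal R) (x : R)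
    (h : ∀ p ∈ s, ¬ (Ideal.span {x} ⊔ I ≤ p)) :
    ∃ y ∈ I, ∀ p ∈ s, x + y ∉ p := by
  classical
  set s₁ := s.filter (fun p => x ∈ p) with hs₁
  set s₂ := s.filter (fun q => x ∉ q ∧ ∀ p ∈ s₁, ¬ q ≤ p) with hs₂
  by_cases hemp : s₁ = ∅
  · refine ⟨0, I.zero_mem, fun p hp hmem => ?_⟩
    have : p ∈ s₁ := by
      rw [hs₁, Finset.mem_filter]
      exact ⟨hp, by simpa using hmem⟩
    rw [hemp] at this
    simp at this
  obtain ⟨p₀, hp₀⟩ := Finset.nonempty_iff_ne_empty.mpr hemp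
  have hprime₁ : ∀ p ∈ s₁, p.IsPrime := fun p hp => hs p (Finset.mem_filter.mp hp).1
  -- an element of `I` outside all primes in `s₁`
  have hI : ¬ ((I : Set R) ⊆ ⋃ p ∈ (s₁ : Set (Ideal R)), (p : Set R)) := by
    intro hsub
    obtain ⟨p, hp, hle⟩ :=
      (Ideal.subset_union_prime (f := fun p : Ideal R => p) p₀ p₀
        (fun i hi _ _ => hprime₁ i hi)).mp hsub
    have hp' := Finset.mem_filter.mp hp
    exact h p hp'.1 (sup_le ((Ideal.span_singleton_le_iff_mem p).mpr hp'.2) hle)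
  obtain ⟨y₀, hy₀I, hy₀⟩ := Set.not_subset.mp hI
  have hy₀' : ∀ p ∈ s₁, y₀ ∉ p := by
    intro p hp hmem
    exact hy₀ (Set.mem_biUnion (Finset.mem_coe.mpr hp) hmem)
  -- for each `q ∈ s₂`, an element of `q` outside all primes in `s₁`
  have hq : ∀ q ∈ s₂, ∃ t ∈ q, ∀ p ∈ s₁, t ∉ p := by
    intro q hq
    have hq' := (Finset.mem_filter.mp hq).2
    have : ¬ ((q : Set R) ⊆ ⋃ p ∈ (s₁ : Set (Ideal R)), (p : Set R)) := by
      intro hsub
      obtain ⟨p, hp, hle⟩ :=
        (Ideal.subset_union_prime (f := fun p : Ideal R => p) p₀ p₀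
          (fun i hi _ _ => hprime₁ i hi)).mp hsub
      exact hq'.2 p hp hle
    obtain ⟨t, htq, ht⟩ := Set.not_subset.mp this
    exact ⟨t, htq, fun p hp hmem => ht (Set.mem_biUnion (Finset.mem_coe.mpr hp) hmem)⟩
  choose! t htq ht using hq
  set w : R := ∏ q ∈ s₂, t q with hw
  have hw₁ : ∀ p ∈ s₁, w ∉ p := by
    intro p hp hmem
    have hpp := hprime₁ p hp
    obtain ⟨q, hq, hmem'⟩ := (hpp.prod_mem_iff).mp hmem
    exact ht q hq p hp hmem'
  have hw₂ : ∀ q ∈ s₂, w ∈ q := by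
    intro q hq
    rw [hw, ← Finset.mul_prod_erase s₂ t hq]
    exact q.mul_mem_right _ (htq q hq)
  refine ⟨y₀ * w, I.mul_mem_right _ hy₀I, fun p hp hmem => ?_⟩
  by_cases hx : x ∈ p
  · -- `p ∈ s₁`
    have hp₁ : p ∈ s₁ := Finset.mem_filter.mpr ⟨hp, hx⟩
    have hpp := hprime₁ p hp₁
    have : y₀ * w ∈ p := by
      have := p.sub_mem hmem hx
      simpa using this
    rcases hpp.mem_or_mem this with h1 | h1
    · exact hy₀' p hp₁ h1
    · exact hw₁ p hp₁ h1
  · by_cases hle : ∀ p' ∈ s₁, ¬ p ≤ p'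
    · have hp₂ : p ∈ s₂ := Finset.mem_filter.mpr ⟨hp, hx, hle⟩
      have : y₀ * w ∈ p := p.mul_mem_left _ (hw₂ p hp₂)
      have := p.sub_mem hmem this
      exact hx (by simpa using this)
    · push Not at hle
      obtain ⟨p', hp', hle'⟩ := hle
      have hpp := hprime₁ p' hp'
      have hx' : x ∈ p' := (Finset.mem_filter.mp hp').2
      have h1 : x + y₀ * w ∈ p' := hle' hmem
      have : y₀ * w ∈ p' := by
        have := p'.sub_mem h1 hx'
        simpa using this
      rcases hpp.mem_or_mem this with h2 | h2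
      · exact hy₀' p' hp' h2
      · exact hw₁ p' hp' h2

end Fermat.Agent.S57.Kap
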