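import Mathlib.RingTheory.Depth.Rees
import Mathlib.RingTheory.Regular.Free
import Fermat.Agent.S57.KapAvoid

/-!
Kaplansky-style: over a Noetherian local ring, if the maximal ideal is generated (modulo the
annihilator) by a list `xs` and the module has a regular sequence of length `xs.length` inside
the maximal ideal, then `xs` itself is a (weakly) regular sequence.
-/

set_option autoImplicit false

universe u

namespace Fermat.Agent.S57.Kap

open RingTheory.Sequence IsLocalRing CategoryTheory Abelian Pointwise

variable {R : Type u} [CommRing R]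

/-- Replacing the last element of a weakly regular sequence by one congruent to it
modulo the previous elements. -/
theorem isWeaklyRegular_append_singleton_of_sub_mem {M : Type*} [AddCommGroup M] [Module R M]
    (rs : List R) (z x : R) (hzx : z - x ∈ Ideal.ofList rs)
    (h : IsWeaklyRegular M (rs ++ [z])) : IsWeaklyRegular M (rs ++ [x]) := by
  rw [isWeaklyRegular_append_iff] at h ⊢
  refine ⟨h.1, ?_⟩
  have h2 := (isWeaklyRegular_singleton_iff _ z).mp h.2
  rw [isWeaklyRegular_singleton_iff]
  rw [isSMulRegular_quotient_iff_mem_of_smul_mem] at h2 ⊢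
  intro m hm
  apply h2 m
  have : z • m = x • m + (z - x) • m := by rw [sub_smul]; abel
  rw [this]
  exact Submodule.add_mem _ hm (Submodule.smul_mem_smul hzx Submodule.mem_top)

end Fermat.Agent.S57.Kap

namespace Fermat.Agent.S57.Kap

open RingTheory.Sequence IsLocalRing CategoryTheory Abelian Pointwise

variable {R : Type u} [CommRing R]

/-- One step of depth descent: if `M` has a regular sequence of length `n + 1` inside the
maximal ideal and `z` in the maximal ideal is `M`-regular, then `M / zM` has a regular
sequence of length `n` inside the maximal ideal. -/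
theorem exists_isRegular_quotSMulTop [IsLocalRing R] [IsNoetherianRing R]
    (M : Type u) [AddCommGroup M] [Module R M] [Module.Finite R M]
    (n : ℕ) (rs : List R) (hlen : rs.length = n + 1) (hrs : ∀ r ∈ rs, r ∈ maximalIdeal R)
    (hreg : IsRegular M rs) (z : R) (hz : z ∈ maximalIdeal R) (hzreg : IsSMulRegular M z) :
    ∃ rs' : List R, rs'.length = n ∧ (∀ r ∈ rs', r ∈ maximalIdeal R) ∧
      IsRegular (QuotSMulTop z M) rs' := by
  have hnt : Nontrivial M := hreg.nontrivial
  have hnt' : Nontrivial (QuotSMulTop z M) := nontrivial_quotSMulTop_of_mem_maximalIdeal M hz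
  have smul_lt : maximalIdeal R • (⊤ : Submodule R M) < ⊤ :=
    lt_top_iff_ne_top.mpr (Submodule.top_ne_ideal_smul_of_le_jacobson_annihilator
      (IsLocalRing.maximalIdeal_le_jacobson _)).symm
  have smul_lt' : maximalIdeal R • (⊤ : Submodule R (QuotSMulTop z M)) < ⊤ :=
    lt_top_iff_ne_top.mpr (Submodule.top_ne_ideal_smul_of_le_jacobson_annihilator
      (IsLocalRing.maximalIdeal_le_jacobson _)).symm
  let N : ModuleCat.{u} R := ModuleCat.of R (Shrink.{u} (R ⧸ maximalIdeal R))
  have finN : Module.Finite R N :=
    Module.Finite.equiv (Shrink.linearEquiv R (R ⧸ maximalIdeal R)).symm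
  have suppN : Module.support R N = PrimeSpectrum.zeroLocus (maximalIdeal R : Set R) := by
    rw [(Shrink.linearEquiv R _).support_eq, Module.support_eq_zeroLocus,
      Ideal.annihilator_quotient]
  let M' : ModuleCat.{u} R := ModuleCat.of R M
  have hzreg' : IsSMulRegular M' z := hzreg
  have h_ext : ∀ i < rs.length, Subsingleton (Ext N M' i) :=
    ModuleCat.subsingleton_ext_of_exists_isRegular (maximalIdeal R) N suppN.subset M' smul_lt
      rs hrs hreg
  have h_ext' : ∀ i < n, Subsingleton (Ext N (ModuleCat.of R (QuotSMulTop z M)) i) := by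
    intro i hi
    have zero1 := AddCommGrpCat.isZero_of_iff_subsingleton.mpr (h_ext i (by omega))
    have zero2 := AddCommGrpCat.isZero_of_iff_subsingleton.mpr (h_ext (i + 1) (by omega))
    exact AddCommGrpCat.subsingleton_of_isZero <| ShortComplex.Exact.isZero_of_both_zeros
      ((Ext.covariant_sequence_exact₃' N hzreg'.smulShortComplex_shortExact) i (i + 1) rfl)
      (zero1.eq_zero_of_src _) (zero2.eq_zero_of_tgt _)
  exact ModuleCat.exists_isRegular_of_exists_subsingleton_ext (maximalIdeal R) n
    (ModuleCat.of R (QuotSMulTop z M)) smul_lt' N suppN h_ext'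

end Fermat.Agent.S57.Kap

namespace Fermat.Agent.S57.Kap

open RingTheory.Sequence IsLocalRing CategoryTheory Abelian Pointwise

variable {R : Type u} [CommRing R]

/-- Kaplansky: if the maximal ideal of a Noetherian local ring is generated by `xs` modulo an
ideal `J` annihilating the finitely generated module `M`, and `M` has some regular sequence of
length `xs.length` inside the maximal ideal, then `xs` is weakly regular on `M`. -/
theorem isWeaklyRegular_of_exists_isRegular [IsLocalRing R] [IsNoetherianRing R]
    (xs : List R) : ∀ (M : Type u) [AddCommGroup M] [Module R M] [Module.Finite R M]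
    (J : Ideal R), J ≤ Module.annihilator R M → (∀ x ∈ xs, x ∈ maximalIdeal R) →
    maximalIdeal R ≤ J ⊔ Ideal.ofList xs →
    (∃ rs : List R, rs.length = xs.length ∧ (∀ r ∈ rs, r ∈ maximalIdeal R) ∧ IsRegular M rs) →
    IsWeaklyRegular M xs := by
  induction xs with
  | nil => intro M _ _ _ J _ _ _ _; exact IsWeaklyRegular.nil R M
  | cons x xs ih =>
    intro M _ _ _ J hJ hmem hle ⟨rs, hlen, hrs, hreg⟩
    classical
    have hnt : Nontrivial M := hreg.nontrivial
    have hxmem : x ∈ maximalIdeal R := hmem x List.mem_cons_self
    have hxsmem : ∀ x' ∈ xs, x' ∈ maximalIdeal R := fun x' hx' =>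
      hmem x' (List.mem_cons_of_mem _ hx')
    have hxsle : Ideal.ofList xs ≤ maximalIdeal R := Ideal.span_le.mpr hxsmem
    -- the first element of `rs` is regular
    obtain ⟨r, rs', rfl⟩ : ∃ r rs', rs = r :: rs' := by
      cases rs with
      | nil => simp at hlen
      | cons r rs' => exact ⟨r, rs', rfl⟩
    have hr : IsSMulRegular M r := ((isRegular_cons_iff M r rs').mp hreg).1
    have hrmem : r ∈ maximalIdeal R := hrs r List.mem_cons_self
    -- coset prime avoidance
    have hfin := associatedPrimes.finite R M
    have hunion := biUnion_associatedPrimes_eq_compl_regular R M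
    obtain ⟨y, hy, hz⟩ := exists_add_notMem_of_not_subset_union hfin.toFinset
      (fun p hp => (hfin.mem_toFinset.mp hp).isPrime) (Ideal.ofList xs) x (by
        intro p hp hle'
        have hp' : p ∈ associatedPrimes R M := hfin.mem_toFinset.mp hp
        have hJp : J ≤ p := by
          have h0 := hp'.annihilator_le
          rw [Submodule.annihilator_top] at h0
          exact hJ.trans h0
        have hmp : maximalIdeal R ≤ p := by
          refine hle.trans ?_
          rw [Ideal.ofList_cons, ← sup_assoc]
          exact sup_le (sup_le hJp (le_sup_left.trans hle')) (le_sup_right.trans hle')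
        have hrp : r ∈ ⋃ p ∈ associatedPrimes R M, (p : Set R) :=
          Set.mem_biUnion hp' (hmp hrmem)
        rw [hunion] at hrp
        exact hrp hr)
    set z := x + y with hzdef
    have hzreg : IsSMulRegular M z := by
      by_contra hcon
      have : z ∈ ({r | IsSMulRegular M r}ᶜ : Set R) := hcon
      rw [← hunion] at this
      obtain ⟨p, hp, hzp⟩ := Set.mem_iUnion₂.mp this
      exact hz p (hfin.mem_toFinset.mpr hp) hzp
    have hzmem : z ∈ maximalIdeal R := Ideal.add_mem _ hxmem (hxsle hy)
    -- depth descent
    obtain ⟨rs'', hlen'', hrs'', hreg''⟩ := exists_isRegular_quotSMulTop M xs.length (r :: rs')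
      (by simpa using hlen) hrs hreg z hzmem hzreg
    -- induction hypothesis on `M / zM`
    have hJ' : J ⊔ Ideal.span {z} ≤ Module.annihilator R (QuotSMulTop z M) := by
      refine sup_le ?_ ?_
      · intro j hj
        rw [Module.mem_annihilator]
        intro m
        induction m using Submodule.Quotient.induction_on with | _ m
        rw [← Submodule.Quotient.mk_smul, Module.mem_annihilator.mp (hJ hj) m,
          Submodule.Quotient.mk_zero]
      · rw [Ideal.span_singleton_le_iff_mem, Module.mem_annihilator]
        intro m
        induction m using Submodule.Quotient.induction_on with | _ m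
        rw [← Submodule.Quotient.mk_smul, Submodule.Quotient.mk_eq_zero]
        exact Submodule.smul_mem_pointwise_smul m z ⊤ Submodule.mem_top
    have hle' : maximalIdeal R ≤ (J ⊔ Ideal.span {z}) ⊔ Ideal.ofList xs := by
      refine hle.trans ?_
      rw [Ideal.ofList_cons, ← sup_assoc]
      refine sup_le (sup_le (le_sup_left.trans le_sup_left) ?_) le_sup_right
      rw [Ideal.span_singleton_le_iff_mem]
      have hx : x = z - y := by rw [hzdef]; ring
      rw [hx]
      exact Ideal.sub_mem _ (Ideal.mem_sup_left (Ideal.mem_sup_right
        (Ideal.mem_span_singleton_self z))) (Ideal.mem_sup_right hy)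
    have ih' : IsWeaklyRegular (QuotSMulTop z M) xs :=
      ih (QuotSMulTop z M) (J ⊔ Ideal.span {z}) hJ' hxsmem hle' ⟨rs'', hlen'', hrs'', hreg''⟩
    have h1 : IsWeaklyRegular M (z :: xs) := IsWeaklyRegular.cons hzreg ih'
    have hzxsmem : ∀ r ∈ z :: xs, r ∈ maximalIdeal R := by
      intro r hr
      rcases List.mem_cons.mp hr with rfl | hr
      · exact hzmem
      · exact hxsmem r hr
    -- permute, replace `z` by `x`, permute back
    have h2 : IsWeaklyRegular M (xs ++ [z]) :=
      IsLocalRing.isWeaklyRegular_of_perm_of_subset_maximalIdeal h1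
        (List.perm_append_singleton z xs).symm hzxsmem
    have h3 : IsWeaklyRegular M (xs ++ [x]) :=
      isWeaklyRegular_append_singleton_of_sub_mem xs z x (by simpa [hzdef] using hy) h2
    exact IsLocalRing.isWeaklyRegular_of_perm_of_subset_maximalIdeal h3
      (List.perm_append_singleton x xs) (by
        intro r hr
        rcases List.mem_append.mp hr with hr | hr
        · exact hxsmem r hr
        · rw [List.mem_singleton.mp hr]; exact hxmem)

end Fermat.Agent.S57.Kap
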