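import Mathlib.RingTheory.Ideal.Quotient.Noetherian
import Mathlib.RingTheory.LocalRing.Quotient
import Fermat.Agent.S57.KapRegular

/-!
A finitely generated module over a Noetherian local ring on which a generating list of the
maximal ideal is a weakly regular sequence is free.  Combined with `KapRegular` this gives an
Auslander--Buchsbaum type freeness criterion.
-/

set_option autoImplicit false
set_option linter.style.haveILetI false

universe u v

namespace Fermat.Agent.S57.Kap

open RingTheory.Sequence IsLocalRing

theorem isLocalRing_quotient {R : Type*} [CommRing R] [IsLocalRing R] (I : Ideal R)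
    [Nontrivial (R ⧸ I)] : IsLocalRing (R ⧸ I) :=
  IsLocalRing.of_surjective' (Ideal.Quotient.mk I) Ideal.Quotient.mk_surjective

theorem maximalIdeal_quotient_eq_map {R : Type*} [CommRing R] [IsLocalRing R] (I : Ideal R)
    [Nontrivial (R ⧸ I)] :
    haveI := isLocalRing_quotient I
    maximalIdeal (R ⧸ I) = (maximalIdeal R).map (Ideal.Quotient.mk I) := by
  haveI := isLocalRing_quotient I
  have hI : I ≤ maximalIdeal R := IsLocalRing.le_maximalIdeal (Ideal.Quotient.nontrivial_iff.mp ‹_›)
  symm
  apply IsLocalRing.eq_maximalIdeal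
  rcases Ideal.map_eq_top_or_isMaximal_of_surjective (Ideal.Quotient.mk I)
    Ideal.Quotient.mk_surjective (maximalIdeal.isMaximal R) with h | h
  · exfalso
    have h1 := congrArg (Ideal.comap (Ideal.Quotient.mk I)) h
    rw [Ideal.comap_map_of_surjective _ Ideal.Quotient.mk_surjective, Ideal.comap_top,
      ← RingHom.ker_eq_comap_bot, Ideal.mk_ker, sup_eq_left.mpr hI] at h1
    exact (maximalIdeal.isMaximal R).ne_top h1
  · exact h

theorem free_of_isWeaklyRegular_of_ofList_eq_maximalIdeal (n : ℕ) :
    ∀ (R : Type u) [CommRing R] [IsLocalRing R] [IsNoetherianRing R]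
      (M : Type v) [AddCommGroup M] [Module R M] [Module.Finite R M] (xs : List R),
      xs.length = n → IsWeaklyRegular M xs → Ideal.ofList xs = maximalIdeal R →
      Module.Free R M := by
  induction n with
  | zero =>
    intro R _ _ _ M _ _ _ xs hlen _ hgen
    obtain rfl : xs = [] := List.length_eq_zero_iff.mp hlen
    rw [Ideal.ofList_nil] at hgen
    have hfield : IsField R := IsLocalRing.isField_iff_maximalIdeal_eq.mpr hgen.symm
    letI := hfield.toField
    exact Module.Free.of_divisionRing R M
  | succ n ih =>
    intro R _ _ _ M _ _ _ xs hlen hreg hgen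
    obtain ⟨x, xs', rfl⟩ : ∃ x xs', xs = x :: xs' := by
      cases xs with
      | nil => simp at hlen
      | cons x xs' => exact ⟨x, xs', rfl⟩
    have hxmem : x ∈ maximalIdeal R := by
      rw [← hgen]
      exact Ideal.subset_span List.mem_cons_self
    obtain ⟨hxreg, hreg'⟩ := (isWeaklyRegular_cons_iff' M x xs').mp hreg
    have hne : Ideal.span {x} ≠ ⊤ := fun h =>
      (maximalIdeal.isMaximal R).ne_top (top_le_iff.mp (h ▸ (Ideal.span_singleton_le_iff_mem _).mpr hxmem))
    haveI : Nontrivial (R ⧸ Ideal.span {x}) := Ideal.Quotient.nontrivial_iff.mpr hne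
    haveI : IsLocalRing (R ⧸ Ideal.span {x}) := isLocalRing_quotient _
    haveI : Module.Finite (R ⧸ Ideal.span {x}) (QuotSMulTop x M) :=
      Module.Finite.of_restrictScalars_finite R (R ⧸ Ideal.span {x}) (QuotSMulTop x M)
    have hgen' : Ideal.ofList (xs'.map (Ideal.Quotient.mk (Ideal.span {x}))) =
        maximalIdeal (R ⧸ Ideal.span {x}) := by
      rw [maximalIdeal_quotient_eq_map, ← hgen, Ideal.ofList_cons, Ideal.map_sup,
        ← Ideal.map_ofList]
      have h0 : Ideal.map (Ideal.Quotient.mk (Ideal.span {x})) (Ideal.span {x}) = ⊥ := by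
        rw [Ideal.map_span, Set.image_singleton, Ideal.Quotient.mk_singleton_self]
        exact Ideal.span_singleton_eq_bot.mpr rfl
      rw [h0, bot_sup_eq]
    have hfree' : Module.Free (R ⧸ Ideal.span {x}) (QuotSMulTop x M) :=
      ih (R ⧸ Ideal.span {x}) (QuotSMulTop x M) _ (by simpa using hlen) hreg' hgen'
    haveI : Module.FinitePresentation R M := Module.finitePresentation_of_finite R M
    have hjac : x ∈ (⊥ : Ideal R).jacobson := by
      rw [IsLocalRing.jacobson_eq_maximalIdeal ⊥ bot_ne_top]
      exact hxmem
    exact (Module.free_quotSMulTop_iff_free R M hjac hxreg).mp hfree'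

/-- Auslander--Buchsbaum type criterion: let `R` be a Noetherian local ring whose maximal ideal
is generated by `xs`, and `M` a finitely generated `R`-module having a regular sequence of
length `xs.length` inside the maximal ideal.  Then `M` is free. -/
theorem free_of_exists_isRegular {R : Type u} [CommRing R] [IsLocalRing R] [IsNoetherianRing R]
    (M : Type u) [AddCommGroup M] [Module R M] [Module.Finite R M] (xs : List R)
    (hgen : Ideal.ofList xs = maximalIdeal R)
    (h : ∃ rs : List R, rs.length = xs.length ∧ (∀ r ∈ rs, r ∈ maximalIdeal R) ∧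
      IsRegular M rs) :
    Module.Free R M := by
  have hmem : ∀ x ∈ xs, x ∈ maximalIdeal R := fun x hx => hgen ▸ Ideal.subset_span hx
  have hreg : IsWeaklyRegular M xs :=
    isWeaklyRegular_of_exists_isRegular xs M ⊥ bot_le hmem (by rw [hgen]; exact le_sup_right) h
  exact free_of_isWeaklyRegular_of_ofList_eq_maximalIdeal xs.length R M xs rfl hreg hgen

end Fermat.Agent.S57.Kap
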