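import Fermat.Agent.S57.PSIdeal
import Mathlib.RingTheory.Regular.RegularSequence
import Mathlib.RingTheory.DiscreteValuationRing.Basic

/-!
`X_0, …, X_{r-1}, ϖ` is a regular sequence on `𝒪⟦X_0, …, X_{r-1}⟧` generating the maximal ideal.
-/

set_option autoImplicit false

namespace Fermat.Agent.S57.PS

open MvPowerSeries RingTheory.Sequence

variable {A : Type*} [CommRing A] {r : ℕ}

/-- the list of variables -/
noncomputable def varList (A : Type*) [CommRing A] (r : ℕ) : List (MvPowerSeries (Fin r) A) :=
  List.ofFn (fun i : Fin r => (X i : MvPowerSeries (Fin r) A))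

@[simp] theorem length_varList : (varList A r).length = r := by
  simp [varList]

theorem ofList_take_varList (k : ℕ) :
    Ideal.ofList ((varList A r).take k) = varIdeal A r k := by
  unfold Ideal.ofList varIdeal
  congr 1
  ext f
  simp only [Set.mem_ofPred_eq, List.mem_take_iff_getElem, varList, List.getElem_ofFn,
    List.length_ofFn]
  constructor
  · rintro ⟨i, hi, rfl⟩
    exact ⟨⟨i, (lt_min_iff.mp hi).2⟩, (lt_min_iff.mp hi).1, rfl⟩
  · rintro ⟨j, hj, rfl⟩
    exact ⟨j.val, lt_min_iff.mpr ⟨hj, j.isLt⟩, rfl⟩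

theorem ofList_varList : Ideal.ofList (varList A r) = varIdeal A r r := by
  have := ofList_take_varList (A := A) (r := r) r
  rwa [List.take_of_length_le (by simp)] at this

theorem isWeaklyRegular_varList :
    IsWeaklyRegular (MvPowerSeries (Fin r) A) (varList A r) := by
  rw [isWeaklyRegular_iff]
  intro i hi
  have hi' : i < r := by simpa using hi
  rw [isSMulRegular_quotient_iff_mem_of_smul_mem]
  intro f hf
  rw [ofList_take_varList, smul_eq_mul, Ideal.mul_top] at hf ⊢
  have hget : (varList A r)[i] = X (⟨i, hi'⟩ : Fin r) := by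
    simp [varList]
  rw [hget, smul_eq_mul] at hf
  exact X_mul_mem_varIdeal ⟨i, hi'⟩ f hf

theorem isWeaklyRegular_varList_append (a : A) (ha : ∀ b : A, a * b = 0 → b = 0) :
    IsWeaklyRegular (MvPowerSeries (Fin r) A) (varList A r ++ [C a]) := by
  rw [isWeaklyRegular_append_iff]
  refine ⟨isWeaklyRegular_varList, ?_⟩
  rw [isWeaklyRegular_singleton_iff, isSMulRegular_quotient_iff_mem_of_smul_mem]
  intro f hf
  rw [ofList_varList, smul_eq_mul, Ideal.mul_top] at hf ⊢
  rw [smul_eq_mul] at hf
  exact C_mul_mem_varIdeal_top a ha f hf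

end Fermat.Agent.S57.PS

namespace Fermat.Agent.S57.PS

open MvPowerSeries RingTheory.Sequence IsLocalRing

variable {A : Type*} [CommRing A] {r : ℕ}

theorem mem_maximalIdeal_iff_constantCoeff [IsLocalRing A] (f : MvPowerSeries (Fin r) A) :
    f ∈ maximalIdeal (MvPowerSeries (Fin r) A) ↔ constantCoeff f ∈ maximalIdeal A := by
  rw [IsLocalRing.mem_maximalIdeal, IsLocalRing.mem_maximalIdeal, mem_nonunits_iff,
    mem_nonunits_iff, isUnit_iff_constantCoeff]

theorem ofList_varList_append_eq_maximalIdeal [IsLocalRing A] (a : A)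
    (ha : maximalIdeal A = Ideal.span {a}) :
    Ideal.ofList (varList A r ++ [C a]) = maximalIdeal (MvPowerSeries (Fin r) A) := by
  rw [Ideal.ofList_append, ofList_varList, Ideal.ofList_singleton]
  apply le_antisymm
  · refine sup_le ?_ ?_
    · intro f hf
      rw [mem_maximalIdeal_iff_constantCoeff, mem_varIdeal_top.mp hf]
      exact Ideal.zero_mem _
    · rw [Ideal.span_singleton_le_iff_mem, mem_maximalIdeal_iff_constantCoeff, constantCoeff_C, ha]
      exact Ideal.mem_span_singleton_self a
  · intro f hf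
    rw [mem_maximalIdeal_iff_constantCoeff, ha, Ideal.mem_span_singleton] at hf
    obtain ⟨c, hc⟩ := hf
    have hdecomp : f = (f - C (constantCoeff f)) + C a * C c := by
      rw [← map_mul, ← hc]; ring
    rw [hdecomp]
    refine Ideal.add_mem _ (Ideal.mem_sup_left ?_) (Ideal.mem_sup_right ?_)
    · rw [mem_varIdeal_top, map_sub, constantCoeff_C, sub_self]
    · exact Ideal.mul_mem_right _ _ (Ideal.mem_span_singleton_self _)

end Fermat.Agent.S57.PS
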