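import Fermat.Prelude.Def_Algebra_PatchingDatum
import Mathlib.RingTheory.DiscreteValuationRing.Basic
import Mathlib.RingTheory.MvPowerSeries.Equiv
import Mathlib.LinearAlgebra.FreeModule.Finite.Basic
import Fermat.Agent.S57.KapFree
import Fermat.Agent.S57.PSRegular

/-!
Patching, descent step (S57): assembly.
-/

set_option autoImplicit false
set_option linter.style.haveILetI false

namespace Fermat.Agent.S57.Kap

open RingTheory.Sequence IsLocalRing MvPowerSeries Fermat.Agent.S57.PS

section

variable {𝒪 : Type} [CommRing 𝒪]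
  {r : ℕ} {R : Type} [CommRing R] [Algebra 𝒪 R]
  {M : Type} [AddCommGroup M] [Module R M]
  (L : Algebra.PatchingLevel 𝒪 r R M ⊥)

/-- the `φ`-semilinear parametrisation of `N` by `P^d` -/
noncomputable def paramHom : (Fin L.d → MvPowerSeries (Fin r) 𝒪) →+ L.N where
  toFun c := ∑ i, L.φ (c i) • L.b i
  map_zero' := by simp
  map_add' c c' := by
    simp only [Pi.add_apply, map_add, add_smul, Finset.sum_add_distrib]

theorem paramHom_apply (c : Fin L.d → MvPowerSeries (Fin r) 𝒪) :
    paramHom L c = ∑ i, L.φ (c i) • L.b i := rfl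

theorem paramHom_bijective : Function.Bijective (paramHom L) := by
  constructor
  · rw [injective_iff_map_eq_zero]
    intro c hc
    rw [paramHom_apply] at hc
    have := (L.b_rel c).mp hc
    funext i
    simpa using this i
  · intro x
    obtain ⟨c, hc⟩ := L.b_span x
    exact ⟨c, hc.symm⟩

/-- the additive equivalence `P^d ≃+ N` -/
noncomputable def paramEquiv : (Fin L.d → MvPowerSeries (Fin r) 𝒪) ≃+ L.N :=
  AddEquiv.ofBijective (paramHom L) (paramHom_bijective L)

theorem paramEquiv_smul (f : MvPowerSeries (Fin r) 𝒪) (c : Fin L.d → MvPowerSeries (Fin r) 𝒪) :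
    paramEquiv L (f • c) = L.φ f • paramEquiv L c := by
  change paramHom L (f • c) = L.φ f • paramHom L c
  simp only [paramHom_apply, Pi.smul_apply, smul_eq_mul, map_mul, mul_smul, Finset.smul_sum]

theorem finite_N : Module.Finite (MvPowerSeries (Fin r) 𝒪) L.N := by
  have hspan : Submodule.span (MvPowerSeries (Fin r) 𝒪) (Set.range L.b) = ⊤ := by
    rw [eq_top_iff]
    intro x _
    obtain ⟨c, rfl⟩ := L.b_span x
    exact Submodule.sum_mem _ (fun i _ => Submodule.smul_mem _ _
      (Submodule.subset_span (Set.mem_range_self i)))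
  exact ⟨hspan ▸ Submodule.fg_span (Set.finite_range L.b)⟩

theorem nontrivial_N [Nontrivial M] : Nontrivial L.N := by
  obtain ⟨m, hm⟩ := exists_ne (0 : M)
  obtain ⟨x, rfl⟩ := L.π_surjective m
  refine ⟨⟨x, 0, fun h => hm ?_⟩⟩
  rw [h, map_zero]

theorem nontrivial_R [Nontrivial M] : Nontrivial R := by
  by_contra h
  rw [not_nontrivial_iff_subsingleton] at h
  haveI := Module.subsingleton R M
  exact not_subsingleton M ‹_›

theorem phi_mem_maximalIdeal [IsLocalRing 𝒪] [Nontrivial M] (f : MvPowerSeries (Fin r) 𝒪)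
    (hf : L.ψ (L.φ f) = 0) : L.φ f ∈ maximalIdeal (MvPowerSeries (Fin r) 𝒪) := by
  haveI := nontrivial_R (M := M) (R := R)
  rw [IsLocalRing.mem_maximalIdeal, mem_nonunits_iff]
  intro hu
  have := hu.map L.ψ
  rw [hf] at this
  exact not_isUnit_zero this

end

end Fermat.Agent.S57.Kap

namespace Fermat.Agent.S57.Kap

open RingTheory.Sequence IsLocalRing MvPowerSeries Fermat.Agent.S57.PS
open scoped TensorProduct

section

variable {𝒪 : Type} [CommRing 𝒪] [IsDomain 𝒪] [IsDiscreteValuationRing 𝒪]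
  {r : ℕ} {R : Type} [CommRing R] [Algebra 𝒪 R]
  {M : Type} [AddCommGroup M] [Module R M] [Nontrivial M]
  (L : Algebra.PatchingLevel 𝒪 r R M ⊥)

theorem free_N : Module.Free (MvPowerSeries (Fin r) 𝒪) L.N := by
  haveI := finite_N L
  haveI := nontrivial_N L
  obtain ⟨ϖ, hϖ⟩ := IsDiscreteValuationRing.exists_irreducible 𝒪
  have hmax : maximalIdeal 𝒪 = Ideal.span {ϖ} := hϖ.maximalIdeal_eq
  set xs : List (MvPowerSeries (Fin r) 𝒪) := varList 𝒪 r ++ [C ϖ] with hxs
  have hgen : Ideal.ofList xs = maximalIdeal (MvPowerSeries (Fin r) 𝒪) :=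
    ofList_varList_append_eq_maximalIdeal ϖ hmax
  have hregP : IsWeaklyRegular (MvPowerSeries (Fin r) 𝒪) xs :=
    isWeaklyRegular_varList_append ϖ (fun b hb => (mul_eq_zero.mp hb).resolve_left hϖ.ne_zero)
  have hregPd : IsWeaklyRegular (Fin L.d → MvPowerSeries (Fin r) 𝒪) xs := by
    have h1 : IsWeaklyRegular
        ((Fin L.d → MvPowerSeries (Fin r) 𝒪) ⊗[MvPowerSeries (Fin r) 𝒪]
          MvPowerSeries (Fin r) 𝒪) xs :=
      hregP.isWeaklyRegular_lTensor
    exact ((TensorProduct.rid (MvPowerSeries (Fin r) 𝒪)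
      (Fin L.d → MvPowerSeries (Fin r) 𝒪)).isWeaklyRegular_congr xs).mp h1
  have hregN : IsWeaklyRegular L.N (xs.map L.φ) := by
    refine (AddEquiv.isWeaklyRegular_congr (e := paramEquiv L) (as := xs) (bs := xs.map L.φ)
      ?_).mp hregPd
    rw [List.forall₂_map_right_iff, List.forall₂_same]
    intro f _ c
    exact paramEquiv_smul L f c
  have hmem : ∀ y ∈ xs.map L.φ, y ∈ maximalIdeal (MvPowerSeries (Fin r) 𝒪) := by
    intro y hy
    obtain ⟨x, hx, rfl⟩ := List.mem_map.mp hy
    rcases List.mem_append.mp hx with hx | hx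
    · obtain ⟨i, rfl⟩ : ∃ i : Fin r, X i = x := by
        simpa [varList, List.mem_ofFn] using hx
      exact phi_mem_maximalIdeal L _ (L.ψ_φ_X i)
    · rw [List.mem_singleton.mp hx]
      have : L.φ (C ϖ) = C ϖ := by
        rw [c_eq_algebraMap]
        exact L.φ.commutes ϖ
      rw [this, mem_maximalIdeal_iff_constantCoeff, constantCoeff_C, hmax]
      exact Ideal.mem_span_singleton_self ϖ
  have hreg : IsRegular L.N (xs.map L.φ) :=
    IsRegular.of_isWeaklyRegular_of_mem_maximalIdeal L.N hmem hregN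
  exact free_of_exists_isRegular L.N xs hgen ⟨xs.map L.φ, by simp, hmem, hreg⟩

end

end Fermat.Agent.S57.Kap

namespace Fermat.Agent.S57.Kap

open RingTheory.Sequence IsLocalRing MvPowerSeries Fermat.Agent.S57.PS

section

variable {𝒪 : Type} [CommRing 𝒪]
  {r : ℕ} {R : Type} [CommRing R] [Algebra 𝒪 R]
  {M : Type} [AddCommGroup M] [Module R M]
  (L : Algebra.PatchingLevel 𝒪 r R M ⊥)

/-- the relation ideal `(φ X_0, …, φ X_{r-1})` -/
noncomputable def relIdeal : Ideal (MvPowerSeries (Fin r) 𝒪) :=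
  Ideal.span (Set.range fun i : Fin r => L.φ (MvPowerSeries.X i))

theorem relIdeal_le_ker : relIdeal L ≤ RingHom.ker L.ψ := by
  rw [relIdeal, Ideal.span_le]
  rintro _ ⟨i, rfl⟩
  exact L.ψ_φ_X i

theorem pi_sum {ι : Type*} (s : Finset ι) (f : ι → MvPowerSeries (Fin r) 𝒪) (x : ι → L.N) :
    L.π (∑ i ∈ s, f i • x i) = ∑ i ∈ s, L.ψ (f i) • L.π (x i) := by
  rw [map_sum]
  exact Finset.sum_congr rfl (fun i _ => L.π_smul _ _)

variable {ι : Type*} (B : Module.Basis ι (MvPowerSeries (Fin r) 𝒪) L.N)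

theorem repr_mem_of_mem_smul_top (x : L.N)
    (hx : x ∈ relIdeal L • (⊤ : Submodule (MvPowerSeries (Fin r) 𝒪) L.N)) (i : ι) :
    B.repr x i ∈ relIdeal L := by
  rw [← B.span_eq] at hx
  obtain ⟨a, ha, rfl⟩ := (Submodule.mem_ideal_smul_span_iff_exists_sum (relIdeal L) B x).mp hx
  have : (a.sum fun i c => c • B i) = Finsupp.linearCombination _ B a := rfl
  rw [this, B.repr_linearCombination]
  exact ha i

theorem mem_relIdeal_of_pi_smul_eq_zero (i₀ : ι) (f : MvPowerSeries (Fin r) 𝒪)
    (h : L.π (f • B i₀) = 0) : f ∈ relIdeal L := by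
  have h1 := repr_mem_of_mem_smul_top L B (f • B i₀) ((L.ker_π _).mp h) i₀
  simpa using h1

end

section

variable {𝒪 : Type} [CommRing 𝒪] [IsDomain 𝒪] [IsDiscreteValuationRing 𝒪]
  {r : ℕ} {R : Type} [CommRing R] [Algebra 𝒪 R]
  {M : Type} [AddCommGroup M] [Module R M] [Nontrivial M]
  (L : Algebra.PatchingLevel 𝒪 r R M ⊥)

theorem patching_main :
    Module.Free R M ∧ Module.annihilator R M = ⊥ ∧
      RingHom.ker L.ψ = Ideal.span (Set.range fun i : Fin r => L.φ (MvPowerSeries.X i)) := by
  classical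
  haveI := finite_N L
  haveI := nontrivial_N L
  haveI := free_N L
  let B := Module.Free.chooseBasis (MvPowerSeries (Fin r) 𝒪) L.N
  haveI : Fintype (Module.Free.ChooseBasisIndex (MvPowerSeries (Fin r) 𝒪) L.N) :=
    Module.Free.ChooseBasisIndex.fintype _ _
  have hne : Nonempty (Module.Free.ChooseBasisIndex (MvPowerSeries (Fin r) 𝒪) L.N) :=
    B.index_nonempty
  obtain ⟨i₀⟩ := hne
  have hker : RingHom.ker L.ψ = relIdeal L := by
    refine le_antisymm (fun f hf => ?_) (relIdeal_le_ker L)
    apply mem_relIdeal_of_pi_smul_eq_zero L B i₀ f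
    have hf0 : L.ψ f = 0 := (RingHom.mem_ker).mp hf
    rw [L.π_smul, hf0, zero_smul]
  refine ⟨?_, ?_, hker⟩
  · -- freeness: the images of the basis vectors form a basis
    have hli : LinearIndependent R (fun i => L.π (B i)) := by
      rw [Fintype.linearIndependent_iff]
      intro g hg j
      choose f hf using fun i => L.ψ_surjective (g i)
      have h1 : L.π (∑ i, f i • B i) = 0 := by
        rw [pi_sum]
        simpa [hf] using hg
      have h2 := repr_mem_of_mem_smul_top L B _ ((L.ker_π _).mp h1) j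
      have h3 : B.repr (∑ i, f i • B i) j = f j := by
        have : (∑ i, f i • B i) = B.equivFun.symm f := by
          rw [Module.Basis.equivFun_symm_apply]
        rw [this, ← Module.Basis.equivFun_apply, LinearEquiv.apply_symm_apply]
      rw [h3] at h2
      rw [← hf j]
      exact (RingHom.mem_ker).mp (relIdeal_le_ker L h2)
    have hsp : ⊤ ≤ Submodule.span R (Set.range fun i => L.π (B i)) := by
      intro m _
      obtain ⟨x, rfl⟩ := L.π_surjective m
      have hx : x = ∑ i, B.repr x i • B i := (B.sum_repr x).symm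
      rw [hx, pi_sum]
      exact Submodule.sum_mem _ (fun i _ => Submodule.smul_mem _ _
        (Submodule.subset_span (Set.mem_range_self i)))
    exact Module.Free.of_basis (Module.Basis.mk hli hsp)
  · -- faithfulness
    rw [eq_bot_iff]
    intro a ha
    obtain ⟨f, rfl⟩ := L.ψ_surjective a
    rw [Module.mem_annihilator] at ha
    have h1 : L.π (f • B i₀) = 0 := by
      rw [L.π_smul]
      exact ha _
    have h2 := mem_relIdeal_of_pi_smul_eq_zero L B i₀ f h1
    exact (RingHom.mem_ker).mp (relIdeal_le_ker L h2)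

end

end Fermat.Agent.S57.Kap
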