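import Mathlib.RingTheory.MvPowerSeries.Basic
import Mathlib.RingTheory.MvPowerSeries.Inverse
import Mathlib.RingTheory.MvPowerSeries.NoZeroDivisors
import Mathlib.RingTheory.Ideal.Operations

/-!
The ideals `(X_0, …, X_{k-1})` of a multivariate power series ring in finitely many variables,
described by vanishing of coefficients.
-/

set_option autoImplicit false

namespace Fermat.Agent.S57.PS

open MvPowerSeries

variable {A : Type*} [CommRing A] {r : ℕ}

/-- The ideal generated by the first `k` variables. -/
noncomputable def varIdeal (A : Type*) [CommRing A] (r k : ℕ) : Ideal (MvPowerSeries (Fin r) A) :=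
  Ideal.span {f | ∃ j : Fin r, j.val < k ∧ (X j : MvPowerSeries (Fin r) A) = f}

/-- The ideal of power series whose coefficients vanish at all monomials not involving
the first `k` variables. -/
noncomputable def vanIdeal (A : Type*) [CommRing A] (r k : ℕ) : Ideal (MvPowerSeries (Fin r) A) where
  carrier := {f | ∀ m : Fin r →₀ ℕ, (∀ i : Fin r, i.val < k → m i = 0) → coeff m f = 0}
  add_mem' := by
    intro f g hf hg m hm
    rw [map_add, hf m hm, hg m hm, add_zero]
  zero_mem' := by
    intro m _
    simp
  smul_mem' := by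
    classical
    intro c f hf m hm
    rw [smul_eq_mul, coeff_mul]
    apply Finset.sum_eq_zero
    intro p hp
    have hp' : p.1 + p.2 = m := Finset.mem_antidiagonal.mp hp
    have : coeff p.2 f = 0 := by
      apply hf
      intro i hi
      have h1 := hm i hi
      rw [← hp'] at h1
      simp only [Finsupp.coe_add, Pi.add_apply, Nat.add_eq_zero_iff] at h1
      exact h1.2
    rw [this, mul_zero]

theorem mem_vanIdeal {k : ℕ} {f : MvPowerSeries (Fin r) A} :
    f ∈ vanIdeal A r k ↔
      ∀ m : Fin r →₀ ℕ, (∀ i : Fin r, i.val < k → m i = 0) → coeff m f = 0 :=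
  Iff.rfl

theorem varIdeal_le_vanIdeal (k : ℕ) : varIdeal A r k ≤ vanIdeal A r k := by
  classical
  rw [varIdeal, Ideal.span_le]
  rintro f ⟨j, hj, rfl⟩
  intro m hm
  rw [coeff_X, if_neg]
  intro h
  have := hm j hj
  rw [h] at this
  simp at this

theorem varIdeal_mono {k l : ℕ} (h : k ≤ l) : varIdeal A r k ≤ varIdeal A r l := by
  apply Ideal.span_mono
  rintro f ⟨j, hj, rfl⟩
  exact ⟨j, lt_of_lt_of_le hj h, rfl⟩

theorem vanIdeal_le_varIdeal (k : ℕ) (hk : k ≤ r) : vanIdeal A r k ≤ varIdeal A r k := by
  classical
  induction k with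
  | zero =>
    intro f hf
    have : f = 0 := by
      ext m
      rw [map_zero]
      exact hf m (fun i hi => absurd hi (Nat.not_lt_zero _))
    rw [this]
    exact Ideal.zero_mem _
  | succ k ih =>
    intro f hf
    have hk' : k < r := hk
    let j : Fin r := ⟨k, hk'⟩
    -- the part of `f` not involving `X j`
    let h : MvPowerSeries (Fin r) A := fun m => if m j = 0 then coeff m f else 0
    have hcoeff : ∀ m, coeff m h = if m j = 0 then coeff m f else 0 := fun m => rfl
    have hh : h ∈ vanIdeal A r k := by
      intro m hm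
      rw [hcoeff]
      split_ifs with hmj
      · apply hf
        intro i hi
        rcases Nat.lt_succ_iff_lt_or_eq.mp hi with hi' | hi'
        · exact hm i hi'
        · have : i = j := Fin.ext hi'
          rw [this]; exact hmj
      · rfl
    have hdvd : (X j : MvPowerSeries (Fin r) A) ∣ f - h := by
      rw [X_dvd_iff]
      intro m hm
      rw [map_sub, hcoeff, if_pos hm, sub_self]
    obtain ⟨g, hg⟩ := hdvd
    have hf' : f = h + X j * g := by rw [← hg]; ring
    rw [hf']
    refine Ideal.add_mem _ (varIdeal_mono (Nat.le_succ k) (ih (Nat.le_of_succ_le hk) hh)) ?_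
    exact Ideal.mul_mem_right _ _ (Ideal.subset_span ⟨j, Nat.lt_succ_self k, rfl⟩)

theorem varIdeal_eq_vanIdeal (k : ℕ) (hk : k ≤ r) : varIdeal A r k = vanIdeal A r k :=
  le_antisymm (varIdeal_le_vanIdeal k) (vanIdeal_le_varIdeal k hk)

/-- `X j` is a non-zero-divisor modulo `(X_0, …, X_{j-1})`. -/
theorem X_mul_mem_varIdeal (j : Fin r) (f : MvPowerSeries (Fin r) A)
    (h : X j * f ∈ varIdeal A r j.val) : f ∈ varIdeal A r j.val := by
  classical
  rw [varIdeal_eq_vanIdeal _ j.isLt.le] at h ⊢
  intro m hm
  have h1 : coeff (Finsupp.single j 1 + m) (X j * f) = coeff m f := by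
    rw [X_def, coeff_add_monomial_mul, one_mul]
  rw [← h1]
  apply h
  intro i hi
  have hij : i ≠ j := fun hij => by rw [hij] at hi; exact lt_irrefl _ hi
  rw [Finsupp.add_apply, hm i hi, Finsupp.single_apply, if_neg (Ne.symm hij)]

/-- membership in the ideal of all variables is vanishing of the constant coefficient -/
theorem mem_varIdeal_top {f : MvPowerSeries (Fin r) A} :
    f ∈ varIdeal A r r ↔ constantCoeff f = 0 := by
  rw [varIdeal_eq_vanIdeal _ le_rfl, mem_vanIdeal]
  constructor
  · intro h
    rw [← coeff_zero_eq_constantCoeff_apply]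
    exact h 0 (fun _ _ => rfl)
  · intro h m hm
    have : m = 0 := by
      ext i
      exact hm i i.isLt
    rw [this, coeff_zero_eq_constantCoeff_apply, h]

/-- a constant which is a non-zero-divisor of `A` is a non-zero-divisor modulo all variables -/
theorem C_mul_mem_varIdeal_top (a : A) (ha : ∀ b : A, a * b = 0 → b = 0)
    (f : MvPowerSeries (Fin r) A) (h : C a * f ∈ varIdeal A r r) : f ∈ varIdeal A r r := by
  rw [mem_varIdeal_top] at h ⊢
  rw [map_mul, constantCoeff_C] at h
  exact ha _ h

end Fermat.Agent.S57.PS
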